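import Fermat.Agent.Root.SummarySylvesterSchur
import Mathlib.FieldTheory.PolynomialGaloisGroup

/-!
# The Galois group of a truncated exponential as a permutation group
-/

set_option autoImplicit false

noncomputable section

namespace FA.SchurExp

open Finset Nat Polynomial

/-- `∑ j ≤ n, X ^ j / j !`. -/
def expRat (n : ℕ) : ℚ[X] := ∑ j ∈ Finset.range (n + 1), Polynomial.C ((j ! : ℚ)⁻¹) * X ^ j

theorem coeff_expRat (n j : ℕ) :
    (expRat n).coeff j = if j ≤ n then (j ! : ℚ)⁻¹ else 0 := by
  simp only [expRat, finsetSum_coeff, coeff_C_mul, coeff_X_pow, mul_ite, mul_one, mul_zero,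
    sum_ite_eq, Finset.mem_range, Nat.lt_succ_iff]

theorem map_expPoly (n : ℕ) :
    (expPoly n).map (Int.castRingHom ℚ) = Polynomial.C (n ! : ℚ) * expRat n := by
  ext j
  rw [coeff_map, coeff_expPoly, coeff_C_mul, coeff_expRat]
  split_ifs with hj
  · have e := Nat.factorial_mul_descFactorial (Nat.sub_le n j)
    rw [show n - (n - j) = j by omega] at e
    rw [eq_intCast, Int.cast_natCast, ← e, Nat.cast_mul]
    field_simp [Nat.cast_ne_zero.2 (factorial_ne_zero j)]
  · simp

theorem natDegree_expRat (n : ℕ) : (expRat n).natDegree = n := by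
  refine natDegree_eq_of_le_of_coeff_ne_zero (natDegree_le_iff_coeff_eq_zero.2 fun j hj => ?_) ?_
  · rw [coeff_expRat, if_neg (by omega)]
  · simp [coeff_expRat, factorial_ne_zero]

theorem expRat_ne_zero (n : ℕ) : expRat n ≠ 0 := fun h => by
  have := coeff_expRat n n
  rw [h, coeff_zero, if_pos le_rfl, eq_comm, inv_eq_zero, Nat.cast_eq_zero] at this
  exact factorial_ne_zero n this

theorem irreducible_expRat {n : ℕ} (hn : 1 ≤ n) : Irreducible (expRat n) :=
  FA.Summary.schur_exp_irreducible hn

theorem separable_expRat (n : ℕ) : (expRat n).Separable := by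
  rcases Nat.eq_zero_or_pos n with rfl | hn
  · simp [expRat]
  · exact (irreducible_expRat hn).separable

section Field

variable {L : Type*} [Field L] [Algebra ℚ L]

theorem aeval_expPoly (n : ℕ) (x : L) :
    aeval x (expPoly n) = (n ! : L) * aeval x (expRat n) := by
  rw [← aeval_map_algebraMap ℚ x (expPoly n), algebraMap_int_eq, map_expPoly, map_mul, aeval_C,
    map_natCast]

theorem mem_rootSet_expRat {n : ℕ} {x : L} :
    x ∈ (expRat n).rootSet L ↔ aeval x (expPoly n) = 0 := by
  have : CharZero L := algebraRat.charZero L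
  rw [mem_rootSet_of_ne (expRat_ne_zero n), aeval_expPoly,
    mul_eq_zero_iff_left (Nat.cast_ne_zero.2 (factorial_ne_zero n))]

end Field

variable (E : Type*) [Field E] [Algebra ℚ E]

theorem card_rootSet_expRat {n : ℕ} [h : Fact ((expRat n).map (algebraMap ℚ E)).Splits] :
    Fintype.card ((expRat n).rootSet E) = n := by
  rw [card_rootSet_eq_natDegree (separable_expRat n) h.out, natDegree_expRat]

theorem isPretransitive_range {n : ℕ} (hn : 1 ≤ n)
    [Fact ((expRat n).map (algebraMap ℚ E)).Splits] :
    MulAction.IsPretransitive (Gal.galActionHom (expRat n) E).range ((expRat n).rootSet E) := by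
  refine ⟨fun x y => ?_⟩
  obtain ⟨g, hg⟩ := (Gal.galAction_isPretransitive (expRat n) E
    (irreducible_expRat hn)).exists_smul_eq x y
  exact ⟨⟨_, g, rfl⟩, hg⟩

theorem card_range {n : ℕ} [Fact ((expRat n).map (algebraMap ℚ E)).Splits] :
    Nat.card (Gal.galActionHom (expRat n) E).range = Nat.card (expRat n).Gal :=
  (Nat.card_congr (MonoidHom.ofInjective (Gal.galActionHom_injective _ E)).toEquiv).symm

/-- The actions on the roots in two fields are conjugate. -/
theorem exists_galActionHom_eq (E' : Type*) [Field E'] [Algebra ℚ E'] (f : ℚ[X])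
    [Fact (f.map (algebraMap ℚ E)).Splits] [Fact (f.map (algebraMap ℚ E')).Splits] :
    ∃ e : f.rootSet E' ≃ f.rootSet E,
      ∀ g, Gal.galActionHom f E g = e.permCongr (Gal.galActionHom f E' g) := by
  refine ⟨(Gal.rootsEquivRoots f E').symm.trans (Gal.rootsEquivRoots f E), fun g => ?_⟩
  ext x
  simp [Gal.galActionHom, Gal.smul_def, Equiv.permCongr_apply]

/-- An automorphism of a field over which the roots lie gives a permutation of the group. -/
theorem galActionHom_restrict_apply {K : Type*} [Field K] [Algebra ℚ K] [Algebra K E]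
    [IsScalarTower ℚ K E] (f : ℚ[X]) [Fact (f.map (algebraMap ℚ E)).Splits] (σ : E ≃ₐ[K] E)
    (x : f.rootSet E) :
    (Gal.galActionHom f E (Gal.restrict f E (σ.restrictScalars ℚ)) x : E) = σ x :=
  Gal.galActionHom_restrict f E (σ.restrictScalars ℚ) x

/-- The permutations from the automorphisms over `K`. -/
def localHom (K : Type*) [Field K] [Algebra ℚ K] [Algebra K E] [IsScalarTower ℚ K E] (f : ℚ[X])
    [Fact (f.map (algebraMap ℚ E)).Splits] : (E ≃ₐ[K] E) →* Equiv.Perm (f.rootSet E) where
  toFun σ := Gal.galActionHom f E (Gal.restrict f E (σ.restrictScalars ℚ))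
  map_one' := by
    ext x
    simpa using galActionHom_restrict_apply E f (1 : E ≃ₐ[K] E) x
  map_mul' σ τ := by
    ext x
    rw [Equiv.Perm.mul_apply, galActionHom_restrict_apply, galActionHom_restrict_apply,
      galActionHom_restrict_apply]
    rfl

theorem range_localHom_le (K : Type*) [Field K] [Algebra ℚ K] [Algebra K E] [IsScalarTower ℚ K E]
    (f : ℚ[X]) [Fact (f.map (algebraMap ℚ E)).Splits] :
    (localHom E K f).range ≤ (Gal.galActionHom f E).range := by
  rintro _ ⟨σ, rfl⟩
  exact ⟨_, rfl⟩

end FA.SchurExp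

end
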