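import Fermat.Agent.Erdos.SchurGalois.Local
import Mathlib.FieldTheory.AbsoluteGaloisGroup
import Mathlib.LinearAlgebra.Vandermonde
import Mathlib.LinearAlgebra.Lagrange
import Mathlib.GroupTheory.SpecificGroups.Alternating
import Mathlib.FieldTheory.Galois.Infinite
import Mathlib.NumberTheory.Bertrand

/-!
# The discriminant of a truncated exponential

With `f = f' + X ^ n` the square of the product of the differences of the roots of
`∑ j ≤ n, (n! / j!) X ^ j` is `(-1) ^ (n (n - 1) / 2) (n!) ^ n`, a square only if `4 ∣ n` or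
`n ≤ 1`. So the Galois group is even exactly in these cases.
-/

set_option autoImplicit false

noncomputable section

namespace FA.SchurExp

open Finset Nat Polynomial Matrix

theorem expPoly_eq_derivative_add (n : ℕ) :
    expPoly n = derivative (expPoly n) + X ^ n := by
  ext j
  rw [coeff_add, coeff_derivative, coeff_X_pow, coeff_expPoly, coeff_expPoly]
  rcases lt_trichotomy j n with hj | rfl | hj
  · rw [if_pos hj.le, if_pos (by omega : j + 1 ≤ n), if_neg hj.ne, add_zero,
      show n - j = (n - (j + 1)) + 1 by omega, descFactorial_succ,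
      show n - (n - (j + 1)) = j + 1 by omega]
    push_cast
    ring
  · simp
  · rw [if_neg (by omega), if_neg (by omega), if_neg hj.ne']
    simp

theorem sum_card_Ioi (n : ℕ) : ∑ i : Fin n, (Finset.Ioi i).card = n * (n - 1) / 2 := by
  rw [← Finset.sum_range_id, ← Finset.sum_range_reflect, Fin.sum_univ_eq_sum_range
    (fun i => n - 1 - i) n |>.symm]
  exact sum_congr rfl fun i _ => by rw [Fin.card_Ioi]

/-- The square of the Vandermonde determinant is the signed product of the derivatives. -/
theorem det_vandermonde_sq {R : Type*} [CommRing R] {n : ℕ} (v : Fin n → R) :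
    (vandermonde v).det ^ 2
      = (-1) ^ (n * (n - 1) / 2) * ∏ i, ∏ j ∈ Finset.univ.erase i, (v i - v j) := by
  have h1 : ∀ i : Fin n, Finset.univ.erase i = Finset.Iio i ∪ Finset.Ioi i := fun i => by
    ext j
    simp [lt_or_lt_iff_ne]
  have hd : ∀ i : Fin n, Disjoint (Finset.Iio i) (Finset.Ioi i) := fun i =>
    Finset.disjoint_left.2 fun j hj hj' => by
      simp only [Finset.mem_Iio, Finset.mem_Ioi] at hj hj'
      exact lt_asymm hj hj'
  simp only [h1, Finset.prod_union (hd _), Finset.prod_mul_distrib]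
  have h2 : ∏ i : Fin n, ∏ j ∈ Finset.Iio i, (v i - v j) = (vandermonde v).det := by
    rw [det_vandermonde]
    exact Finset.prod_comm' fun i j => by simp
  have h3 : ∏ i : Fin n, ∏ j ∈ Finset.Ioi i, (v i - v j)
      = (-1) ^ (n * (n - 1) / 2) * (vandermonde v).det := by
    rw [det_vandermonde, ← sum_card_Ioi, ← Finset.prod_pow_eq_pow_sum, ← Finset.prod_mul_distrib]
    refine prod_congr rfl fun i _ => ?_
    rw [← Finset.prod_const, ← Finset.prod_mul_distrib]
    exact prod_congr rfl fun j _ => by ring
  rw [h2, h3]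
  have : ((-1 : R) ^ (n * (n - 1) / 2)) * (-1) ^ (n * (n - 1) / 2) = 1 := by
    rw [← mul_pow, neg_one_mul, neg_neg, one_pow]
  linear_combination -((vandermonde v).det ^ 2) * this

/-- The signed power of the factorial. -/
def signedDisc (n : ℕ) : ℚ := (-1) ^ (n * (n - 1) / 2) * (n ! : ℚ) ^ n

/-- `disc = (-1) ^ (n (n - 1) / 2) (n!) ^ n`. -/
theorem det_sq_roots {L : Type*} [Field L] [Algebra ℚ L] {n : ℕ}
    [Fact ((expRat n).map (algebraMap ℚ L)).Splits] (e : Fin n ≃ (expRat n).rootSet L) :
    (vandermonde fun i => (e i : L)).det ^ 2 = algebraMap ℚ L (signedDisc n) := by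
  classical
  have : CharZero L := algebraRat.charZero L
  set P := (expPoly n).map (Int.castRingHom L) with hP
  set v := fun i => (e i : L) with hv
  have hv0 : ∀ i, eval (v i) P = 0 := fun i => by
    rw [hP, eval_map, ← RingHom.ext_int (algebraMap ℤ L) (Int.castRingHom L), ← aeval_def]
    exact mem_rootSet_expRat.1 (e i).2
  have hnod : P = Lagrange.nodal Finset.univ v := by
    have hsub : (Finset.univ.image v).val ≤ P.roots :=
      (Multiset.le_iff_subset (Finset.univ.image v).nodup).2 fun x hx => by
        obtain ⟨i, -, rfl⟩ := Finset.mem_image.1 (Finset.mem_def.2 hx)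
        exact (mem_roots ((monic_expPoly n).map _).ne_zero).2 (hv0 i)
    have hinj : Function.Injective v := fun i j hij => e.injective (Subtype.ext hij)
    have hcard : (Finset.univ.image v).val.card = P.natDegree := by
      rw [Finset.card_val, Finset.card_image_of_injective _ hinj, Finset.card_univ,
        Fintype.card_fin, (monic_expPoly n).natDegree_map, natDegree_expPoly]
    have heq : (Finset.univ.image v).val = P.roots :=
      Multiset.eq_of_le_of_card_le hsub ((card_roots' P).trans hcard.ge)
    have := prod_multiset_X_sub_C_of_monic_of_roots_card_eq ((monic_expPoly n).map _)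
      (by rw [← heq, hcard])
    refine this.symm.trans ?_
    change (Multiset.map _ P.roots).prod = _
    rw [← heq, Lagrange.nodal_eq, Finset.image_val_of_injOn hinj.injOn, Multiset.map_map]
    rfl
  have hder : ∀ i, ∏ j ∈ Finset.univ.erase i, (v i - v j) = -(v i ^ n) := fun i => by
    rw [← Lagrange.eval_nodal, ← Lagrange.eval_nodal_derivative_eval_node_eq (Finset.mem_univ i),
      ← hnod, eq_neg_iff_add_eq_zero]
    have := congrArg (fun g => eval (v i) (g.map (Int.castRingHom L))) (expPoly_eq_derivative_add n)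
    simp only [Polynomial.map_add, Polynomial.map_pow, map_X, eval_add, eval_pow, eval_X,
      ← derivative_map] at this
    rw [← this, ← hP, hv0 i]
  have hprod : ∏ i, -v i = (n ! : L) := by
    have := congrArg (eval (0 : L)) hnod
    rw [← coeff_zero_eq_eval_zero, hP, coeff_map, coeff_expPoly, if_pos (Nat.zero_le n),
      Nat.sub_zero, descFactorial_self, Lagrange.eval_nodal] at this
    rw [map_natCast] at this
    simpa using this.symm
  rw [det_vandermonde_sq, signedDisc, map_mul, map_pow, map_neg, map_one, map_pow, map_natCast]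
  congr 1
  rw [prod_congr rfl fun i _ => hder i, ← hprod, ← Finset.prod_pow]
  rcases Nat.even_or_odd n with he | ho
  · simp only [he.neg_pow]
    rw [Finset.prod_neg, Finset.card_univ, Fintype.card_fin, he.neg_one_pow, one_mul]
  · simp only [ho.neg_pow]

theorem signedDisc_ne_zero (n : ℕ) : signedDisc n ≠ 0 :=
  mul_ne_zero (pow_ne_zero _ (by norm_num))
    (pow_ne_zero _ (Nat.cast_ne_zero.2 (factorial_ne_zero n)))

local notation "Qb" => AlgebraicClosure ℚ

/-- The Galois group consists of even permutations exactly if the discriminant is a square. -/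
theorem range_le_alternatingGroup_iff (E : Type*) [Field E] [Algebra ℚ E] [DecidableEq E] {n : ℕ}
    [Fact ((expRat n).map (algebraMap ℚ E)).Splits] :
    (Gal.galActionHom (expRat n) E).range ≤ alternatingGroup ((expRat n).rootSet E)
      ↔ IsSquare (signedDisc n) := by
  classical
  have halg : Algebra.IsAlgebraic ℚ Qb := AlgebraicClosure.isAlgebraic ℚ
  have : IsAlgClosure ℚ Qb := ⟨inferInstance, halg⟩
  have : Normal ℚ Qb := IsAlgClosure.normal ℚ Qb
  have : IsGalois ℚ Qb := isGalois_iff.mpr ⟨inferInstance, inferInstance⟩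
  have : Fact ((expRat n).map (algebraMap ℚ Qb)).Splits := ⟨IsAlgClosed.splits _⟩
  let e : Fin n ≃ (expRat n).rootSet Qb :=
    (Fintype.equivFinOfCardEq (card_rootSet_expRat Qb)).symm
  set Δ := (vandermonde fun i => (e i : Qb)).det with hΔ
  have hsq : Δ ^ 2 = algebraMap ℚ Qb (signedDisc n) := det_sq_roots e
  have hΔ0 : Δ ≠ 0 := fun h => by
    rw [h, zero_pow two_ne_zero, eq_comm, _root_.map_eq_zero] at hsq
    exact signedDisc_ne_zero n hsq
  have hact : ∀ σ : Qb ≃ₐ[ℚ] Qb, σ Δ =
      ((Equiv.Perm.sign (Gal.galActionHom (expRat n) Qb (Gal.restrict (expRat n) Qb σ)) : ℤ) : Qb)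
        * Δ := fun σ => by
    set π := Gal.galActionHom (expRat n) Qb (Gal.restrict (expRat n) Qb σ) with hπ
    rw [← Equiv.Perm.sign_permCongr e.symm π, ← det_permute, hΔ]
    change σ.toAlgHom.toRingHom _ = _
    rw [RingHom.map_det]
    congr 1
    ext i j
    simp only [RingHom.mapMatrix_apply, Matrix.map_apply, vandermonde_apply, Matrix.submatrix_apply,
      id_eq, map_pow, Equiv.permCongr_apply, Equiv.symm_symm, Equiv.apply_symm_apply]
    congr 1
    exact (Gal.galActionHom_restrict (expRat n) Qb σ (e i)).symm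
  obtain ⟨t, ht⟩ := exists_galActionHom_eq E Qb (expRat n)
  have hiff : (Gal.galActionHom (expRat n) E).range ≤ alternatingGroup ((expRat n).rootSet E)
      ↔ ∀ σ : Qb ≃ₐ[ℚ] Qb, σ Δ = Δ := by
    constructor
    · intro h σ
      have := h ⟨Gal.restrict (expRat n) Qb σ, rfl⟩
      rw [Equiv.Perm.mem_alternatingGroup, ht, Equiv.Perm.sign_permCongr] at this
      rw [hact, this, Units.val_one, Int.cast_one, one_mul]
    · rintro h _ ⟨g, rfl⟩
      obtain ⟨σ, rfl⟩ := Gal.restrict_surjective (expRat n) Qb g
      rw [Equiv.Perm.mem_alternatingGroup, ht, Equiv.Perm.sign_permCongr]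
      have h1 := h σ
      rw [hact, mul_eq_right₀ hΔ0] at h1
      exact Units.val_eq_one.1 (Int.cast_eq_one.1 h1)
  rw [hiff, ← InfiniteGalois.mem_range_algebraMap_iff_fixed]
  constructor
  · rintro ⟨r, hr⟩
    refine ⟨r, (algebraMap ℚ Qb).injective ?_⟩
    rw [← hsq, ← hr, map_mul, sq]
  · rintro ⟨r, hr⟩
    rw [hr, map_mul, ← sq, sq_eq_sq_iff_eq_or_eq_neg] at hsq
    rcases hsq with h | h
    · exact ⟨r, h.symm⟩
    · exact ⟨-r, by rw [map_neg, h]⟩

/-- The discriminant is a square exactly if `4 ∣ n`, for `n ≥ 2`. -/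
theorem isSquare_signedDisc_iff {n : ℕ} (hn : 2 ≤ n) : IsSquare (signedDisc n) ↔ 4 ∣ n := by
  constructor
  · intro h
    have hev : Even (n * (n - 1) / 2) := by
      by_contra hodd
      rw [Nat.not_even_iff_odd] at hodd
      have h0 := h.nonneg
      rw [signedDisc, hodd.neg_one_pow, neg_one_mul, neg_nonneg] at h0
      exact absurd h0 (not_le.2 (by positivity))
    rw [signedDisc, hev.neg_one_pow, one_mul, ← Nat.cast_pow, Rat.isSquare_natCast_iff] at h
    obtain ⟨r, hr⟩ := h
    obtain ⟨p, hp, hp1, hp2⟩ := Nat.exists_prime_lt_and_le_two_mul (n / 2) (by omega)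
    have := Fact.mk hp
    have hpn : p ≤ n := by omega
    have hv : padicValNat p n ! = 1 := padicValNat_factorial_eq_one (by omega) hpn
    have hn2 : Even n := by
      have e := congrArg (padicValNat p) hr
      have hr0 : r ≠ 0 := fun h0 => pow_ne_zero n (factorial_ne_zero n) (by rw [hr, h0, mul_zero])
      rw [padicValNat.pow, hv, mul_one, padicValNat.mul hr0 hr0] at e
      exact ⟨_, e⟩
    obtain ⟨m, rfl⟩ := hn2
    rw [show (m + m) * (m + m - 1) / 2 = m * (m + m - 1) by
      rw [show (m + m) * (m + m - 1) = 2 * (m * (m + m - 1)) by ring]; omega,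
      Nat.even_mul] at hev
    rcases hev with ⟨k, hk⟩ | ⟨k, hk⟩
    · exact ⟨k, by omega⟩
    · omega
  · rintro ⟨m, rfl⟩
    refine ⟨(((4 * m)! : ℕ) : ℚ) ^ (2 * m), ?_⟩
    rw [signedDisc, ← pow_add, show 4 * m * (4 * m - 1) / 2 = 2 * (m * (4 * m - 1)) by
      rw [show 4 * m * (4 * m - 1) = 2 * (2 * (m * (4 * m - 1))) by ring]; omega, pow_mul,
      neg_one_sq, one_pow, one_mul]
    ring_nf

end FA.SchurExp

end
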