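import Fermat.Agent.Erdos.SchurGalois.Local
import Mathlib.NumberTheory.Padics.Hensel
import Mathlib.NumberTheory.Padics.RingHoms
import Mathlib.FieldTheory.Galois.Infinite

/-!
# Elements with small support from roots modulo a prime

If a prime `q` has at least `n - 3` and fewer than `n` roots of `∑ j ≤ n, (n! / j!) X ^ j`, all
simple, an automorphism over `ℚ_q` moves at most three roots and at least one.
-/

set_option autoImplicit false

noncomputable section

namespace FA.SchurExp

open Finset Nat Polynomial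

theorem toZMod_eq_zero_iff {q : ℕ} [Fact q.Prime] (x : ℤ_[q]) :
    PadicInt.toZMod x = 0 ↔ ‖x‖ < 1 := by
  rw [← RingHom.mem_ker, PadicInt.ker_toZMod, IsLocalRing.mem_maximalIdeal, PadicInt.mem_nonunits]

theorem map_aeval_int {A B : Type*} [CommRing A] [CommRing B] [Algebra ℤ A] [Algebra ℤ B]
    (ψ : A →+* B) (f : ℤ[X]) (x : A) : ψ (aeval x f) = aeval (ψ x) f := by
  rw [aeval_def, aeval_def, hom_eval₂, RingHom.ext_int (ψ.comp (algebraMap ℤ A)) (algebraMap ℤ B)]

/-- The roots in `ℚ_q` are integral. -/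
theorem norm_root_le_one {q n : ℕ} [Fact q.Prime] {y : ℚ_[q]} (hy : aeval y (expPoly n) = 0) :
    ‖y‖ ≤ 1 := by
  by_contra hcon
  rw [not_le] at hcon
  rw [aeval_expPoly_eq_sum] at hy
  refine sum_ne_zero_of_dominant (i := n) (Finset.mem_range.2 (lt_succ_self n)) ?_ ?_ hy
  · rw [Nat.sub_self, descFactorial_zero, Nat.cast_one, one_mul]
    exact pow_ne_zero _ fun e => by rw [e, norm_zero] at hcon; linarith
  intro j hj hjn
  rw [Finset.mem_range] at hj
  rw [Nat.sub_self, descFactorial_zero, Nat.cast_one, one_mul, norm_mul, norm_pow, norm_pow]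
  refine lt_of_le_of_lt (mul_le_of_le_one_left (by positivity) ?_)
    (pow_lt_pow_right₀ hcon (by omega))
  exact_mod_cast Padic.norm_int_le_one (n.descFactorial (n - j))

/-- The permutation from an automorphism over `ℚ_q`, moving one to three roots. -/
theorem exists_small_support {q n : ℕ} [hq : Fact q.Prime] (l : Finset (ZMod q))
    (hl : ∀ a : ZMod q, aeval a (expPoly n) = 0 ↔ a ∈ l)
    (hsimple : ∀ a ∈ l, aeval a (expPoly n).derivative ≠ 0)
    (h3 : n ≤ l.card + 3) (hlt : l.card < n)
    (E : Type*) [Field E] [Algebra ℚ E] [Fact ((expRat n).map (algebraMap ℚ E)).Splits]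
    [DecidableEq E] :
    ∃ g ∈ (Gal.galActionHom (expRat n) E).range, g ≠ 1 ∧ g.support.card ≤ 3 := by
  classical
  set L := PadicAlgCl q
  have : Fact ((expRat n).map (algebraMap ℚ L)).Splits := ⟨IsAlgClosed.splits _⟩
  have hlift : ∀ a : ZMod q, a ∈ l → ∃ z : ℤ_[q], aeval z (expPoly n) = 0 ∧
      PadicInt.toZMod z = a ∧
      ∀ z', aeval z' (expPoly n) = 0 → PadicInt.toZMod z' = a → z' = z := fun a ha => by
    set a₀ : ℤ_[q] := ((a.val : ℕ) : ℤ_[q]) with ha₀
    have hred : PadicInt.toZMod a₀ = a := by rw [ha₀, map_natCast, ZMod.natCast_zmod_val]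
    have h1 : ‖aeval a₀ (expPoly n)‖ < 1 := by
      rw [← toZMod_eq_zero_iff, map_aeval_int, hred, hl]
      exact ha
    have h2 : ‖aeval a₀ (expPoly n).derivative‖ = 1 := by
      refine le_antisymm (PadicInt.norm_le_one _) (not_lt.1 fun h => hsimple a ha ?_)
      rwa [← toZMod_eq_zero_iff, map_aeval_int, hred] at h
    obtain ⟨z, hz, hza, -, huniq⟩ :=
      hensels_lemma (F := expPoly n) (a := a₀) (by rw [h2, one_pow]; exact h1)
    rw [h2] at hza huniq
    refine ⟨z, hz, ?_, fun z' hz' hza' => huniq z' hz' ?_⟩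
    · rw [← sub_eq_zero, ← hred, ← map_sub, toZMod_eq_zero_iff]
      exact hza
    · rw [← toZMod_eq_zero_iff, map_sub, hza', hred, sub_self]
  choose z hz hzr hzu using hlift
  -- the roots from `ℚ_q`, read in `L`
  let ι : ℤ_[q] →+* L := (algebraMap ℚ_[q] L).comp PadicInt.Coe.ringHom
  let lift : {a // a ∈ l} → (expRat n).rootSet L := fun a =>
    ⟨ι (z a a.2), mem_rootSet_expRat.2 ((map_aeval_int ι _ _).symm.trans (by rw [hz, map_zero]))⟩
  have hinj : Function.Injective lift := fun a b hab => by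
    have := congrArg Subtype.val hab
    have e : z a a.2 = z b b.2 := Subtype.ext ((algebraMap ℚ_[q] L).injective this)
    exact Subtype.ext (by rw [← hzr a a.2, e, hzr b b.2])
  obtain ⟨x, hx⟩ : ∃ x : (expRat n).rootSet L, x ∉ Set.range lift := by
    by_contra! hall
    have := Fintype.card_le_of_surjective lift hall
    rw [card_rootSet_expRat, Fintype.card_coe] at this
    omega
  have hxK : (x : L) ∉ Set.range (algebraMap ℚ_[q] L) := by
    rintro ⟨y, hy⟩
    have hy0 : aeval y (expPoly n) = 0 := (algebraMap ℚ_[q] L).injective (by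
      rw [map_aeval_int, hy, map_zero]; exact mem_rootSet_expRat.1 x.2)
    set y' : ℤ_[q] := ⟨y, norm_root_le_one hy0⟩ with hy'
    have hy'0 : aeval y' (expPoly n) = 0 := Subtype.ext (by
      have := map_aeval_int PadicInt.Coe.ringHom (expPoly n) y'
      exact this.trans hy0)
    have hmem : PadicInt.toZMod y' ∈ l := by
      rw [← hl, ← map_aeval_int, hy'0, map_zero]
    refine hx ⟨⟨_, hmem⟩, Subtype.ext ?_⟩
    rw [← hy]
    change algebraMap ℚ_[q] L ((z _ hmem : ℤ_[q]) : ℚ_[q]) = algebraMap ℚ_[q] L y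
    rw [← hzu _ hmem y' hy'0 rfl]
  rw [InfiniteGalois.mem_range_algebraMap_iff_fixed, not_forall] at hxK
  obtain ⟨σ, hσ⟩ := hxK
  set g := Gal.galActionHom (expRat n) L (Gal.restrict (expRat n) L (σ.restrictScalars ℚ)) with hg
  have hsupp : g.support ⊆ (Finset.univ.map ⟨lift, hinj⟩)ᶜ := fun y hy => by
    rw [Finset.mem_compl, Finset.mem_map]
    rintro ⟨a, -, rfl⟩
    refine Equiv.Perm.mem_support.1 hy (Subtype.ext ?_)
    rw [hg, galActionHom_restrict_apply]
    exact σ.commutes _
  obtain ⟨e, he⟩ := exists_galActionHom_eq E L (expRat n)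
  refine ⟨e.permCongr g, ⟨_, he _⟩, fun h1 => hσ ?_, ?_⟩
  · have := congrArg (fun t : Equiv.Perm _ => t (e x)) h1
    simp only [Equiv.permCongr_apply, Equiv.symm_apply_apply, Equiv.Perm.one_apply,
      EmbeddingLike.apply_eq_iff_eq] at this
    have h' := congrArg Subtype.val this
    rwa [hg, galActionHom_restrict_apply] at h'
  · have e1 : (e.permCongr g).support ⊆ g.support.map e.toEmbedding := fun y hy => by
      obtain ⟨w, rfl⟩ := e.surjective y
      rw [Equiv.Perm.mem_support, Equiv.permCongr_apply, Equiv.symm_apply_apply] at hy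
      exact Finset.mem_map.2 ⟨w, Equiv.Perm.mem_support.2 fun h => hy (by rw [h]), rfl⟩
    refine (Finset.card_le_card e1).trans ((Finset.card_map _).trans_le
      ((Finset.card_le_card hsupp).trans ?_))
    rw [Finset.card_compl, Finset.card_map, Finset.card_univ, card_rootSet_expRat,
      Fintype.card_coe]
    omega

end FA.SchurExp

end
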