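import Mathlib.GroupTheory.GroupAction.Jordan
import Mathlib.GroupTheory.SpecificGroups.Alternating
import Mathlib.GroupTheory.Sylow
import Mathlib.Data.Nat.Factorization.Basic

/-!
# Jordan: primitive groups with a cycle of prime length

A primitive group holding a cycle of prime length `p ≤ n - 3` contains the alternating group
(Wielandt 13.9). It is `(n - p)`-transitive, so by Sylow the normaliser of the cycle induces every
permutation of its fixed points, and a commutator centralises it.
-/

set_option autoImplicit false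

noncomputable section

namespace FA.SchurExp

open Equiv Equiv.Perm MulAction
open scoped Pointwise

variable {α : Type*} [Fintype α] [DecidableEq α] {G : Subgroup (Perm α)}

/-- An element of prime order `p > n / 2` is a cycle. -/
theorem exists_isCycle_of_dvd_card {p : ℕ} [Fact p.Prime] (hn : Fintype.card α < 2 * p)
    (hd : p ∣ Nat.card G) : ∃ g ∈ G, g.IsCycle ∧ g.support.card = p := by
  obtain ⟨⟨g, hg⟩, ho⟩ := exists_prime_orderOf_dvd_card' p hd
  rw [Subgroup.orderOf_mk] at ho
  have hc : g.IsCycle := isCycle_of_prime_order' (ho ▸ Fact.out) (by omega)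
  exact ⟨g, hg, hc, hc.orderOf ▸ ho⟩

/-- A transitive group with a cycle of prime length `p > n / 2` is primitive. -/
theorem isPreprimitive_of_primeCycle [IsPretransitive G α] {g : Perm α} (hg : g ∈ G)
    (hc : g.IsCycle) (hp : g.support.card.Prime) (hn : Fintype.card α < 2 * g.support.card) :
    IsPreprimitive G α := by
  obtain ⟨a, ha, horb⟩ := hc
  refine IsPreprimitive.of_isTrivialBlock_base a fun {B} haB hB => ?_
  by_cases hfix : (⟨g, hg⟩ : G) • B = B
  · refine Or.inr (hB.eq_univ_of_card_lt ?_)
    have hsub : (g.support : Set α) ⊆ B := by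
      intro x hx
      obtain ⟨i, hi⟩ := horb (mem_support.1 hx)
      have hi' : (⟨g, hg⟩ : G) ^ i ∈ stabilizer G B := zpow_mem hfix i
      rw [← hi, ← mem_stabilizer_iff.1 hi']
      exact ⟨a, haB, rfl⟩
    have := Set.ncard_le_ncard hsub
    rw [Set.ncard_coe_finset] at this
    rw [Nat.card_eq_fintype_card]
    omega
  · refine Or.inl (Set.ncard_le_one_iff_subsingleton.1 ?_)
    have hord : orderOf g = g.support.card := IsCycle.orderOf ⟨a, ha, horb⟩
    have hinj : Function.Injective fun i : Fin g.support.card =>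
        (⟨g, hg⟩ : G) ^ (i : ℕ) • B := by
      intro i j hij
      by_contra hne
      wlog hlt : (i : ℕ) < j generalizing i j
      · exact this hij.symm (fun h => hne h.symm)
          (lt_of_le_of_ne (not_lt.1 hlt) fun h => hne (Fin.ext h.symm))
      refine hfix ?_
      have hm : (⟨g, hg⟩ : G) ^ ((j : ℕ) - i) • B = B := by
        apply smul_left_cancel ((⟨g, hg⟩ : G) ^ (i : ℕ))
        rw [smul_smul, ← pow_add, Nat.add_sub_cancel' hlt.le]
        exact hij.symm
      have hcop : ((j : ℕ) - i).Coprime (orderOf (⟨g, hg⟩ : G)) := by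
        rw [Subgroup.orderOf_mk, hord, Nat.coprime_comm, hp.coprime_iff_not_dvd]
        exact Nat.not_dvd_of_pos_of_lt (by omega) (by have := j.isLt; omega)
      obtain ⟨k, hk⟩ := exists_pow_eq_self_of_coprime hcop
      have : (⟨g, hg⟩ : G) ∈ stabilizer G B := hk ▸ pow_mem (mem_stabilizer_iff.2 hm) k
      exact this
    have h1 := hB.ncard_block_mul_ncard_orbit_eq ⟨a, haB⟩
    have h2 : g.support.card ≤ (Set.range fun x : G => x • B).ncard := by
      have e := Set.ncard_range_of_injective hinj
      rw [Nat.card_fin] at e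
      exact e ▸ Set.ncard_le_ncard (Set.range_subset_iff.2 fun i => ⟨_, rfl⟩) (Set.toFinite _)
    rw [Nat.card_eq_fintype_card] at h1
    change g.support.card ≤ (orbit G B).ncard at h2
    nlinarith

/-- The normaliser of a cycle of prime length induces every permutation of its fixed points. -/
theorem exists_normalizing {g : Perm α} (hg : g ∈ G) (hc : g.IsCycle)
    [hp : Fact g.support.card.Prime]
    [IsMultiplyPretransitive G α (Fintype.card α - g.support.card)]
    (π : Perm α) (hπ : ∀ x ∈ g.support, π x = x) :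
    ∃ h ∈ G, (∀ x, x ∉ g.support → h x = π x) ∧ h * g * h⁻¹ ∈ Subgroup.zpowers g := by
  classical
  have hcard : Fintype.card {x // x ∉ g.support} = Fintype.card α - g.support.card := by
    rw [Fintype.card_subtype_compl, Fintype.card_coe]
  let e : Fin (Fintype.card α - g.support.card) ↪ α :=
    ((Fintype.equivFinOfCardEq hcard).symm.toEmbedding).trans (Function.Embedding.subtype _)
  obtain ⟨⟨h₀, hh₀⟩, hh⟩ := exists_smul_eq G e (e.trans π.toEmbedding)
  have hfix : ∀ x, x ∉ g.support → h₀ x = π x := fun x hx => by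
    have := DFunLike.congr_fun hh (Fintype.equivFinOfCardEq hcard ⟨x, hx⟩)
    simpa [e] using this
  let S := {x // x ∈ g.support}
  let Fix : Subgroup (Perm α) :=
    { carrier := {x | ∀ a, a ∉ g.support → x a = a}
      one_mem' := fun _ _ => rfl
      mul_mem' := fun {x y} hx hy a ha => by rw [Perm.mul_apply, hy a ha, hx a ha]
      inv_mem' := fun {x} hx a ha => by rw [Perm.inv_eq_iff_eq, hx a ha] }
  let K := G ⊓ Fix
  have hFix : Nat.card Fix = g.support.card.factorial := by
    rw [← Nat.card_congr ((Equiv.Perm.subtypeEquivSubtypePerm fun a => a ∈ g.support).trans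
      (Equiv.refl Fix)), Nat.card_perm, Nat.card_eq_fintype_card, Fintype.card_coe]
  have hπs : ∀ x, x ∉ g.support → π x ∉ g.support := fun x hx hπx =>
    hx (π.injective (hπ _ hπx) ▸ hπx)
  have hgK : g ∈ K := ⟨hg, fun a ha => notMem_support.1 ha⟩
  have hg'K : h₀ * g * h₀⁻¹ ∈ K := by
    refine ⟨G.mul_mem (G.mul_mem hh₀ hg) (G.inv_mem hh₀), fun a ha => ?_⟩
    obtain ⟨b, rfl⟩ := π.surjective a
    have hb : b ∉ g.support := fun hb => ha (by rwa [hπ b hb])
    rw [Perm.mul_apply, Perm.mul_apply, ← hfix b hb, ← Perm.mul_apply h₀⁻¹, inv_mul_cancel,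
      Perm.one_apply, notMem_support.1 hb]
  have hsyl : ∀ x : K, orderOf x = g.support.card →
      Nat.card (Subgroup.zpowers x)
        = g.support.card ^ (Nat.card K).factorization g.support.card := by
    intro x hx
    rw [Nat.card_zpowers, hx]
    have h1 : g.support.card ∣ Nat.card K := hx ▸ orderOf_dvd_natCard x
    have h2 : Nat.card K ∣ g.support.card.factorial :=
      hFix ▸ Subgroup.card_dvd_of_le inf_le_right
    have h3 := (Nat.factorization_le_iff_dvd Nat.card_pos.ne' (Nat.factorial_ne_zero _)).2 h2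
      g.support.card
    have h4 : g.support.card.factorial.factorization g.support.card = 1 := by
      rw [← Nat.mul_factorial_pred hp.out.ne_zero,
        Nat.factorization_mul hp.out.ne_zero (Nat.factorial_ne_zero _), Finsupp.add_apply,
        hp.out.factorization_self, Nat.factorization_eq_zero_of_not_dvd]
      exact fun hd => absurd (hp.out.dvd_factorial.1 hd) (by have := hp.out.pos; omega)
    have h5 := hp.out.factorization_pos_of_dvd Nat.card_pos.ne' h1
    rw [show (Nat.card K).factorization g.support.card = 1 by omega, pow_one]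
  have hord : orderOf g = g.support.card := hc.orderOf
  let P := Sylow.ofCard _ (hsyl ⟨g, hgK⟩ (by rw [Subgroup.orderOf_mk, hord]))
  let Q := Sylow.ofCard _ (hsyl ⟨_, hg'K⟩ (by
    rw [Subgroup.orderOf_mk, ← MulAut.conj_apply, MulEquiv.orderOf_eq, hord]))
  obtain ⟨⟨x, hxG, hxF⟩, hx⟩ := exists_smul_eq K Q P
  refine ⟨x * h₀, G.mul_mem hxG hh₀, fun a ha => ?_, ?_⟩
  · rw [Perm.mul_apply, hfix a ha, hxF _ (hπs a ha)]
  · have hmem : (MulAut.conj (⟨x, hxG, hxF⟩ : K)) ⟨_, hg'K⟩ ∈ (P : Subgroup K) := by
      rw [← hx, Sylow.coe_subgroup_smul, ← MulAut.smul_def]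
      exact Subgroup.smul_mem_pointwise_smul _ _ _ (Subgroup.mem_zpowers _)
    obtain ⟨i, hi⟩ := Subgroup.mem_zpowers_iff.1 hmem
    refine Subgroup.mem_zpowers_iff.2 ⟨i, ?_⟩
    have := congrArg Subtype.val hi
    simp only [MulAut.conj_apply, SubgroupClass.coe_zpow, Subgroup.coe_mul, Subgroup.coe_inv]
      at this
    rw [this]
    group

/-- **Jordan**: a primitive group with a cycle of prime length `p ≤ n - 3` contains `Aₙ`. -/
theorem alternatingGroup_le_of_primeCycle (hG : IsPreprimitive G α) {g : Perm α} (hg : g ∈ G)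
    (hc : g.IsCycle) (hp : g.support.card.Prime) (hn : g.support.card + 3 ≤ Fintype.card α) :
    alternatingGroup α ≤ G := by
  classical
  have : Fact g.support.card.Prime := ⟨hp⟩
  set k := Fintype.card α - g.support.card with hk
  have htr : IsMultiplyPretransitive G α k := by
    have hmp : IsMultiplyPreprimitive G α ((k - 1) + 2) := by
      have := isPretransitive_of_isCycle_mem hc hg
      refine hG.isMultiplyPreprimitive (s := (g.support : Set α)ᶜ) ?_ ?_ ?_
      · rw [← Finset.coe_compl, Set.ncard_coe_finset, Finset.card_compl]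
        omega
      · have := hp.two_le
        rw [Nat.card_eq_fintype_card]
        omega
      · refine IsPreprimitive.of_prime_card ?_
        convert hp
        rw [Nat.card_eq_fintype_card, ← Fintype.card_coe]
        refine Fintype.card_congr (Equiv.subtypeEquivRight fun x => ?_)
        simp [SubMulAction.mem_ofFixingSubgroup_iff]
    have := IsMultiplyPreprimitive.isMultiplyPretransitive (M := G) (α := α) ((k - 1) + 2)
    exact isMultiplyPretransitive_of_le (n := k - 1 + 2) (by omega)
      (by have := hp.two_le; rw [Nat.card_eq_fintype_card]; omega)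
  obtain ⟨a, b, c, ha, hb, hcc, hab, hac, hbc⟩ :=
    Finset.two_lt_card_iff.1 (show 2 < g.supportᶜ.card by rw [Finset.card_compl]; omega)
  rw [Finset.mem_compl] at ha hb hcc
  have hsw : ∀ u v : α, u ∉ g.support → v ∉ g.support →
      ∀ x ∈ g.support, Equiv.swap u v x = x := fun u v hu hv x hx =>
    swap_apply_of_ne_of_ne (fun h => hu (h ▸ hx)) (fun h => hv (h ▸ hx))
  obtain ⟨h₁, h₁G, h₁s, h₁n⟩ := exists_normalizing hg hc _ (hsw a b ha hb)
  obtain ⟨h₂, h₂G, h₂s, h₂n⟩ := exists_normalizing hg hc _ (hsw a c ha hcc)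
  have hsinv : ∀ (u v : α) (h : Perm α), u ∉ g.support → v ∉ g.support →
      (∀ x, x ∉ g.support → h x = swap u v x) → ∀ x, x ∉ g.support → h⁻¹ x = swap u v x := by
    intro u v h hu hv hh x hx
    rw [Perm.inv_eq_iff_eq, hh _ ?_, swap_apply_self]
    intro hmem
    rw [← swap_apply_self u v x, hsw u v hu hv _ hmem] at hx
    exact hx hmem
  set h := (h₂ * h₁)⁻¹ * (h₁ * h₂) with hh
  -- both orders induce the same power of `g`, so the commutator centralises it
  have hcomm : Commute h g := by
    obtain ⟨i, hi⟩ := Subgroup.mem_zpowers_iff.1 h₁n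
    obtain ⟨j, hj⟩ := Subgroup.mem_zpowers_iff.1 h₂n
    have s₁ : SemiconjBy h₁ g (g ^ i) := by rw [hi]; exact SemiconjBy.conj_mk h₁ g
    have s₂ : SemiconjBy h₂ g (g ^ j) := by rw [hj]; exact SemiconjBy.conj_mk h₂ g
    have s₁₂ := (s₁.zpow_right j).mul_left s₂
    have s₂₁ := (s₂.zpow_right i).mul_left s₁
    rw [← zpow_mul] at s₁₂ s₂₁
    rw [mul_comm j i] at s₂₁
    exact (s₂₁.inv_symm_left).mul_left s₁₂
  have hG' : h ∈ G := G.mul_mem (G.inv_mem (G.mul_mem h₂G h₁G)) (G.mul_mem h₁G h₂G)
  -- off the cycle it is a three-cycle, on the cycle a power of `g`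
  set τ : Perm α := swap a b * swap a c * (swap a b * swap a c) with hτ
  have htau : τ.IsThreeCycle := (isThreeCycle_swap_mul_swap_same hab hac hbc).isThreeCycle_sq
  have hτs : ∀ x, x ∉ g.support → τ x ∉ g.support ∧ h x = τ x := fun x hx => by
    have m : ∀ (u v : α), u ∉ g.support → v ∉ g.support → ∀ y, y ∉ g.support →
        swap u v y ∉ g.support := fun u v hu hv y hy hmem => by
      rw [← swap_apply_self u v y, hsw u v hu hv _ hmem] at hy
      exact hy hmem
    have x1 := m a c ha hcc x hx
    have x2 := m a b ha hb _ x1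
    have x3 := m a c ha hcc _ x2
    have x4 := m a b ha hb _ x3
    refine ⟨by simpa [hτ] using x4, ?_⟩
    simp only [hh, hτ, mul_inv_rev, Perm.mul_apply]
    rw [h₂s x hx, h₁s _ x1, hsinv a c h₂ ha hcc h₂s _ x2, hsinv a b h₁ ha hb h₁s _ x3]
  have hτfix : ∀ x ∈ g.support, τ x = x := fun x hx => by
    simp only [hτ, Perm.mul_apply, hsw a b ha hb x hx, hsw a c ha hcc x hx]
  obtain ⟨x₀, hx₀⟩ := hc.nonempty_support
  have hmap : ∀ x ∈ g.support, h x ∈ g.support := fun x hx => mem_support.2 fun he => by
    rw [← Perm.mul_apply, ← hcomm.eq, Perm.mul_apply] at he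
    exact mem_support.1 hx (h.injective he)
  obtain ⟨i, hi⟩ := hc.sameCycle (mem_support.1 hx₀) (mem_support.1 (hmap x₀ hx₀))
  suffices e : (g ^ i)⁻¹ * h = τ by
    exact alternatingGroup_le_of_isPreprimitive_of_isThreeCycle_mem hG htau
      (e ▸ G.mul_mem (G.inv_mem (G.zpow_mem hg i)) hG')
  ext x
  rw [Perm.mul_apply, Perm.inv_eq_iff_eq]
  by_cases hx : x ∈ g.support
  · obtain ⟨l, rfl⟩ := hc.sameCycle (mem_support.1 hx₀) (mem_support.1 hx)
    rw [hτfix _ hx, ← Perm.mul_apply, (hcomm.zpow_right l).eq, Perm.mul_apply, ← hi,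
      ← Perm.mul_apply, ← Perm.mul_apply, ← zpow_add, ← zpow_add, add_comm]
  · obtain ⟨hm, he⟩ := hτs x hx
    rw [he, zpow_apply_eq_self_of_apply_eq_self (notMem_support.1 hm)]

end FA.SchurExp

end
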