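import Fermat.Agent.Erdos.SchurGalois.Basic
import Mathlib.FieldTheory.Minpoly.IsConjRoot

/-!
# A root of `p`-adic norm `p ^ (-1 / p)`

For a prime `p` with `n / 2 < p ≤ n` the polynomial `∑ j ≤ n, (n! / j!) X ^ j` has such a root, so
`p` divides its degree over `ℚ_p` and with it the order of the Galois group.
-/

set_option autoImplicit false

noncomputable section

namespace FA.SchurExp

open Finset Nat Polynomial

/-- A vanishing ultrametric sum has no strictly largest term. -/
theorem sum_ne_zero_of_dominant {L : Type*} [NormedField L] [IsUltrametricDist L] {ι : Type*}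
    [DecidableEq ι] {s : Finset ι} {T : ι → L} {i : ι} (hi : i ∈ s) (hi0 : T i ≠ 0)
    (h : ∀ j ∈ s, j ≠ i → ‖T j‖ < ‖T i‖) : ∑ j ∈ s, T j ≠ 0 := fun e => by
  rw [← Finset.add_sum_erase _ _ hi, add_eq_zero_iff_eq_neg] at e
  rcases (s.erase i).eq_empty_or_nonempty with he | hne
  · rw [he, sum_empty, neg_zero] at e
    exact hi0 e
  · obtain ⟨j, hj, hle⟩ := IsUltrametricDist.exists_norm_finsetSum_le_of_nonempty hne T
    rw [← norm_neg, ← e] at hle
    obtain ⟨hji, hjs⟩ := mem_erase.1 hj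
    exact absurd hle (not_le.2 (h j hjs hji))

theorem aeval_expPoly_eq_sum {A : Type*} [CommRing A] [Algebra ℤ A] (n : ℕ) (x : A) :
    aeval x (expPoly n) = ∑ j ∈ Finset.range (n + 1), (n.descFactorial (n - j) : A) * x ^ j := by
  simp [expPoly, map_sum]

theorem not_dvd_descFactorial {p n j : ℕ} (hp : p.Prime) (hn : n < 2 * p) (hj : p ≤ j)
    (hjn : j ≤ n) : ¬p ∣ n.descFactorial (n - j) := fun hd => by
  rw [FA.Erdos.descFactorial_eq_prod_Ioc (Nat.sub_le n j)] at hd
  obtain ⟨x, hx, hdx⟩ := hp.prime.exists_mem_finset_dvd hd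
  rw [Finset.mem_Ioc] at hx
  obtain ⟨t, rfl⟩ := hdx
  rcases Nat.lt_or_ge t 2 with ht | ht
  · have : p * t ≤ p * 1 := Nat.mul_le_mul_left p (by omega)
    omega
  · have : p * 2 ≤ p * t := Nat.mul_le_mul_left p ht
    omega

theorem padicValNat_factorial_eq_one {p n : ℕ} [hp : Fact p.Prime] (hn : n < 2 * p) (hp' : p ≤ n) :
    padicValNat p n ! = 1 := by
  have e := Nat.factorial_mul_descFactorial (Nat.sub_le n p)
  rw [show n - (n - p) = p by omega] at e
  rw [← e, padicValNat.mul (factorial_ne_zero p)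
    (by rw [Ne, descFactorial_eq_zero_iff_lt]; omega),
    padicValNat.eq_zero_of_not_dvd (not_dvd_descFactorial hp.out hn le_rfl hp'), Nat.add_zero,
    ← Nat.mul_factorial_pred hp.out.ne_zero, padicValNat.mul hp.out.ne_zero (factorial_ne_zero _),
    padicValNat.self hp.out.one_lt, padicValNat.eq_zero_of_not_dvd]
  exact fun hd => absurd (hp.out.dvd_factorial.1 hd) (by have := hp.out.pos; omega)

/-- A root of norm `p ^ (-1 / p)`. -/
theorem exists_root_norm {p n : ℕ} [hp : Fact p.Prime] (hn : n < 2 * p) (hp' : p ≤ n) :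
    ∃ β : PadicAlgCl p, aeval β (expPoly n) = 0 ∧ ‖β‖ ^ p = (p : ℝ)⁻¹ := by
  have hp0 : (0 : ℝ) < p := by exact_mod_cast hp.out.pos
  have h1p : (p : ℝ)⁻¹ < 1 := inv_lt_one_of_one_lt₀ (by exact_mod_cast hp.out.one_lt)
  have hd0 : (p : ℤ) ∣ (expPoly n).coeff 0 := by
    rw [coeff_expPoly, if_pos (Nat.zero_le n), Nat.sub_zero, descFactorial_self]
    exact Int.natCast_dvd_natCast.2 (hp.out.dvd_factorial.2 hp')
  obtain ⟨β, hroot, hβ⟩ := exists_small_root p (monic_expPoly n)
    (by rw [natDegree_expPoly]; have := hp.out.pos; omega) hd0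
  rw [natDegree_expPoly] at hβ
  have h0 : aeval β (expPoly n) = 0 := by
    rw [aeval_def, show algebraMap ℤ (PadicAlgCl p) = Int.castRingHom (PadicAlgCl p) from
      RingHom.ext_int _ _, ← eval_map]
    exact hroot
  refine ⟨β, h0, ?_⟩
  rw [aeval_expPoly_eq_sum] at h0
  set r := ‖β‖ with hr
  have hr0 : 0 ≤ r := norm_nonneg β
  have hr1 : r < 1 := lt_of_pow_lt_pow_left₀ n zero_le_one (by rw [one_pow]; linarith)
  have hT : ∀ j, ‖(n.descFactorial (n - j) : PadicAlgCl p) * β ^ j‖
      = ‖(n.descFactorial (n - j) : PadicAlgCl p)‖ * r ^ j := fun j => by rw [norm_mul, norm_pow]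
  have hlow : ∀ j, j ≤ n → j < p →
      ‖(n.descFactorial (n - j) : PadicAlgCl p)‖ ≤ (p : ℝ)⁻¹ := fun j hjn hj => by
    have hz : n.descFactorial (n - j) ≠ 0 := by rw [Ne, descFactorial_eq_zero_iff_lt]; omega
    rw [norm_natCast_eq p hz]
    refine pow_le_of_le_one (inv_nonneg.2 hp0.le) h1p.le ?_
    rw [← Nat.pos_iff_ne_zero]
    refine one_le_padicValNat_of_dvd hz ?_
    rw [FA.Erdos.descFactorial_eq_prod_Ioc (Nat.sub_le n j)]
    exact dvd_prod_of_mem _ (Finset.mem_Ioc.2 ⟨by omega, hp'⟩)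
  have hhigh : ∀ j, p ≤ j → j ≤ n → ‖(n.descFactorial (n - j) : PadicAlgCl p)‖ = 1 :=
    fun j hj hjn => by
      rw [norm_natCast_eq p (by rw [Ne, descFactorial_eq_zero_iff_lt]; omega),
        padicValNat.eq_zero_of_not_dvd (not_dvd_descFactorial hp.out hn hj hjn), pow_zero]
  have hc0 : ‖(n.descFactorial (n - 0) : PadicAlgCl p)‖ = (p : ℝ)⁻¹ := by
    rw [Nat.sub_zero, descFactorial_self, norm_natCast_eq p (factorial_ne_zero n),
      padicValNat_factorial_eq_one hn hp', pow_one]
  rcases lt_trichotomy (r ^ p) (p : ℝ)⁻¹ with hlt | heq | hgt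
  · refine absurd h0 (sum_ne_zero_of_dominant (i := 0) (Finset.mem_range.2 (by omega)) ?_ ?_)
    · rw [← norm_pos_iff, hT, hc0, pow_zero, mul_one]
      positivity
    intro j hj hj0
    rw [Finset.mem_range] at hj
    rw [hT, hT, hc0, pow_zero, mul_one]
    rcases Nat.lt_or_ge j p with h | h
    · calc _ ≤ (p : ℝ)⁻¹ * r ^ j := by gcongr; exact hlow j (by omega) h
        _ < (p : ℝ)⁻¹ * 1 := by
          refine mul_lt_mul_of_pos_left (pow_lt_one₀ hr0 hr1 hj0) (by positivity)
        _ = _ := mul_one _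
    · rw [hhigh j h (by omega), one_mul]
      exact lt_of_le_of_lt (pow_le_pow_of_le_one hr0 hr1.le h) hlt
  · exact heq
  · have hrp : 0 < r := by
      rcases hr0.lt_or_eq with h | h
      · exact h
      · rw [← h, zero_pow hp.out.ne_zero] at hgt
        exact absurd hgt (not_lt.2 (by positivity))
    refine absurd h0 (sum_ne_zero_of_dominant (i := p) (Finset.mem_range.2 (by omega)) ?_ ?_)
    · rw [← norm_pos_iff, hT, hhigh p le_rfl hp', one_mul]
      positivity
    intro j hj hjp
    rw [Finset.mem_range] at hj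
    rw [hT, hT, hhigh p le_rfl hp', one_mul]
    rcases Nat.lt_or_ge j p with h | h
    · calc _ ≤ (p : ℝ)⁻¹ * 1 :=
          mul_le_mul (hlow j (by omega) h) (pow_le_one₀ hr0 hr1.le) (by positivity) (by positivity)
        _ < _ := by rwa [mul_one]
    · rw [hhigh j h (by omega), one_mul]
      exact pow_lt_pow_right_of_lt_one₀ hrp hr1 (by omega)

/-- The orbit of a root under the automorphisms over `K` has the size of its degree. -/
theorem natDegree_minpoly_dvd_card (E K : Type*) [Field E] [Algebra ℚ E] [Field K] [Algebra ℚ K]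
    [Algebra K E] [IsScalarTower ℚ K E] [Normal K E] [CharZero K] (f : ℚ[X])
    [Fact (f.map (algebraMap ℚ E)).Splits] (x : f.rootSet E) :
    (minpoly K (x : E)).natDegree ∣ Nat.card (Gal.galActionHom f E).range := by
  classical
  have hint : IsIntegral K (x : E) := Normal.isIntegral inferInstance _
  have himg : Subtype.val '' MulAction.orbit (localHom E K f).range x
      = (minpoly K (x : E)).rootSet E := by
    ext y
    rw [← isConjRoot_iff_mem_minpoly_rootSet hint]
    constructor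
    · rintro ⟨_, ⟨⟨_, σ, rfl⟩, rfl⟩, rfl⟩
      refine isConjRoot_iff_exists_algEquiv.2 ⟨σ⁻¹, ?_⟩
      rw [show (((⟨localHom E K f σ, σ, rfl⟩ : (localHom E K f).range) • x : f.rootSet E) : E)
        = σ x from galActionHom_restrict_apply E f σ x]
      exact σ.symm_apply_apply x
    · intro hy
      obtain ⟨σ, hσ⟩ := isConjRoot_iff_exists_algEquiv.1 hy.symm
      exact ⟨_, ⟨⟨_, σ, rfl⟩, rfl⟩, (galActionHom_restrict_apply E f σ x).trans hσ⟩
  have hcard : Nat.card (MulAction.orbit (localHom E K f).range x)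
      = (minpoly K (x : E)).natDegree := by
    rw [Nat.card_coe_set_eq, ← Set.ncard_image_of_injective _ Subtype.val_injective, himg,
      ← Nat.card_coe_set_eq, Nat.card_eq_fintype_card,
      card_rootSet_eq_natDegree (minpoly.irreducible hint).separable
        (Normal.splits inferInstance _)]
  rw [← hcard]
  refine dvd_trans ?_ (Subgroup.card_dvd_of_le (range_localHom_le E K f))
  rw [Nat.card_congr (MulAction.orbitEquivQuotientStabilizer (localHom E K f).range x)]
  exact Subgroup.index_dvd_card _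

/-- Every prime in `(n / 2, n]` divides the order of the Galois group. -/
theorem prime_dvd_card_gal {p n : ℕ} [hp : Fact p.Prime] (hn : n < 2 * p) (hp' : p ≤ n) :
    p ∣ Nat.card (expRat n).Gal := by
  obtain ⟨β, h0, hβ⟩ := exists_root_norm hn hp'
  have : Fact ((expRat n).map (algebraMap ℚ (PadicAlgCl p))).Splits := ⟨IsAlgClosed.splits _⟩
  rw [← card_range (E := PadicAlgCl p)]
  refine dvd_trans ?_ (natDegree_minpoly_dvd_card (PadicAlgCl p) ℚ_[p] (expRat n)
    ⟨β, mem_rootSet_expRat.2 h0⟩)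
  set d := (minpoly ℚ_[p] β).natDegree with hd
  have hint : IsIntegral ℚ_[p] β := Normal.isIntegral inferInstance _
  have hd0 : 0 < d := minpoly.natDegree_pos hint
  have hβ0 : β ≠ 0 := fun e => by
    rw [e, norm_zero, zero_pow hp.out.ne_zero] at hβ
    exact absurd hβ.symm (inv_ne_zero (by exact_mod_cast hp.out.ne_zero))
  have hc : (minpoly ℚ_[p] β).coeff 0 ≠ 0 := minpoly.coeff_zero_ne_zero hint hβ0
  have hnorm : ‖β‖ ^ d = ‖(minpoly ℚ_[p] β).coeff 0‖ := by
    rw [← PadicAlgCl.spectralNorm_eq, spectralNorm.spectralNorm_eq_norm_coeff_zero_rpow,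
      ← Real.rpow_natCast,
      ← Real.rpow_mul (norm_nonneg _), one_div, inv_mul_cancel₀ (by positivity), Real.rpow_one]
  rw [Padic.norm_eq_zpow_neg_valuation hc] at hnorm
  have h1 := congrArg (fun t => t ^ p) hnorm
  simp only [← pow_mul] at h1
  rw [mul_comm, pow_mul, hβ, inv_pow, ← zpow_natCast (p : ℝ) d, ← zpow_neg,
    ← zpow_natCast ((p : ℝ) ^ (-_ : ℤ)) p, ← zpow_mul] at h1
  have h2 := (zpow_right_injective₀ (a := (p : ℝ)) (by exact_mod_cast hp.out.pos)
    (by exact_mod_cast hp.out.one_lt.ne')) h1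
  exact Int.natCast_dvd_natCast.1 ⟨((minpoly ℚ_[p] β).coeff 0).valuation, by linarith⟩

end FA.SchurExp

end
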