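import Mathlib.NumberTheory.Bertrand

/-!
# A prime in `(m, 2 m - 3]`

Bertrand's argument, with room for one more prime factor.
-/

set_option autoImplicit false

noncomputable section

namespace FA.SchurExp

open Finset Nat

theorem pow_seven_le_two_pow {s : ℕ} (hs : 37 ≤ s) : (s + 1) ^ 7 ≤ 2 ^ s := by
  induction s, hs using Nat.le_induction with
  | base => norm_num
  | succ s hs ih =>
    have h : 31 ^ 7 * (s + 2) ^ 7 ≤ 32 ^ 7 * (s + 1) ^ 7 := by
      rw [← mul_pow, ← mul_pow]
      exact Nat.pow_le_pow_left (by omega) 7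
    rw [show s + 1 + 1 = s + 2 by ring, pow_succ 2 s]
    refine Nat.le_of_mul_le_mul_left (h.trans ?_) (by norm_num : 0 < 31 ^ 7)
    calc 32 ^ 7 * (s + 1) ^ 7 ≤ (2 * 31 ^ 7) * 2 ^ s := Nat.mul_le_mul (by norm_num) ih
      _ = 31 ^ 7 * (2 ^ s * 2) := by ring

theorem main_inequality {m : ℕ} (hm : 701 ≤ m) :
    2 * m * m * (2 * m) ^ sqrt (2 * m) * 4 ^ (2 * m / 3) ≤ 4 ^ m := by
  set s := sqrt (2 * m) with hs
  have h1 : 2 * m < (s + 1) ^ 2 := Nat.lt_succ_sqrt' (2 * m)
  have h2 : s ^ 2 ≤ 2 * m := Nat.sqrt_le' (2 * m)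
  have h37 : 37 ≤ s := Nat.le_sqrt'.2 (by omega)
  have key : (2 * m) ^ (s + 2) ≤ 4 ^ (m - 2 * m / 3) := by
    rw [← Nat.pow_le_pow_iff_left (n := 7) (by norm_num)]
    calc ((2 * m) ^ (s + 2)) ^ 7 ≤ (((s + 1) ^ 2) ^ (s + 2)) ^ 7 := by gcongr
      _ = ((s + 1) ^ 7) ^ (2 * (s + 2)) := by rw [← pow_mul, ← pow_mul, ← pow_mul]; ring_nf
      _ ≤ (2 ^ s) ^ (2 * (s + 2)) := Nat.pow_le_pow_left (pow_seven_le_two_pow h37) _
      _ ≤ (4 ^ (m - 2 * m / 3)) ^ 7 := by
          rw [show (4 : ℕ) = 2 ^ 2 by norm_num, ← pow_mul, ← pow_mul, ← pow_mul]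
          refine Nat.pow_le_pow_right two_pos ?_
          have h3 : m ≤ 3 * (m - 2 * m / 3) := by omega
          nlinarith
  calc 2 * m * m * (2 * m) ^ s * 4 ^ (2 * m / 3)
      ≤ (2 * m) ^ (s + 2) * 4 ^ (2 * m / 3) := by
        rw [pow_add, mul_comm ((2 * m) ^ s) ((2 * m) ^ 2)]
        gcongr
        nlinarith
    _ ≤ 4 ^ (m - 2 * m / 3) * 4 ^ (2 * m / 3) := by gcongr
    _ = 4 ^ m := by rw [← pow_add]; congr 1; omega

theorem exists_prime_gap_large {m : ℕ} (hm : 701 ≤ m) :
    ∃ p, p.Prime ∧ m < p ∧ p + 3 ≤ 2 * m := by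
  by_contra! hno
  have hno' : ∀ p, p.Prime → m < p → p ≤ 2 * m → p = 2 * m - 1 := fun p hp h h' => by
    have := hno p hp h
    rcases hp.eq_two_or_odd with rfl | ho <;> omega
  set f := fun x => x ^ (centralBinom m).factorization x
  have e : centralBinom m ≤ (2 * m) * ((2 * m) ^ sqrt (2 * m) * 4 ^ (2 * m / 3)) := by
    set S := {p ∈ range (2 * m / 3 + 1) | p.Prime} with hS
    have hsub : insert (2 * m - 1) S ⊆ range (2 * m + 1) := by
      intro x hx
      simp only [hS, mem_insert, mem_filter, mem_range] at hx ⊢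
      omega
    have hprod : centralBinom m = ∏ p ∈ insert (2 * m - 1) S, f p := by
      refine (Eq.trans ?_ m.prod_pow_factorization_centralBinom).symm
      refine prod_subset hsub fun x hx hxS => ?_
      simp only [hS, mem_insert, mem_filter, mem_range, not_or, not_and] at hx hxS
      by_cases hxp : x.Prime
      · have h3 : 2 * m < 3 * x := by have := mt hxS.2 (not_not.2 hxp); omega
        have hxm : x ≤ m := by
          by_contra hcon
          exact hxS.1 (hno' x hxp (by omega) (by omega))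
        simp [f, factorization_centralBinom_of_two_mul_self_lt_three_mul (by omega) hxm h3]
      · simp [f, factorization_eq_zero_of_not_prime m.centralBinom hxp]
    have hnot : 2 * m - 1 ∉ S := by simp only [hS, mem_filter, mem_range]; omega
    rw [hprod, prod_insert hnot, ← prod_filter_mul_prod_filter_not S (· ≤ sqrt (2 * m))]
    gcongr
    · exact pow_factorization_choose_le (by omega)
    · refine (prod_le_prod' fun p _ => (?_ : f p ≤ 2 * m)).trans ?_
      · exact pow_factorization_choose_le (by omega)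
      rw [prod_const]
      refine Nat.pow_le_pow_right (by omega) ?_
      calc _ ≤ (Icc 1 (sqrt (2 * m))).card := card_le_card fun x hx => by
            simp only [hS, mem_filter] at hx
            exact mem_Icc.2 ⟨hx.1.2.one_lt.le, hx.2⟩
        _ = _ := by simp
    · refine le_trans ?_ (primorial_le_four_pow (2 * m / 3))
      refine (prod_le_prod' fun p hp => (?_ : f p ≤ p)).trans ?_
      · simp only [hS, mem_filter] at hp
        refine (Nat.pow_le_pow_right hp.1.2.one_lt.le ?_).trans (pow_one p).le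
        exact Nat.factorization_choose_le_one (sqrt_lt'.mp <| not_le.1 hp.2)
      refine prod_le_prod_of_subset_of_one_le' (filter_subset _ _) ?_
      exact fun p hp _ => (mem_filter.1 hp).2.one_lt.le
  have h1 := four_pow_lt_mul_centralBinom m (by omega)
  have h2 := main_inequality hm
  nlinarith [Nat.mul_le_mul_left m e]

theorem prime_gap_step {m : ℕ} (p : ℕ) {q : ℕ} (hp : p.Prime) (hpq : p + 3 ≤ 2 * q)
    (H : m < q → ∃ r, r.Prime ∧ m < r ∧ r + 3 ≤ 2 * m) (hm : m < p) :
    ∃ r, r.Prime ∧ m < r ∧ r + 3 ≤ 2 * m := by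
  rcases lt_or_ge m q with h | h
  · exact H h
  · exact ⟨p, hp, hm, by omega⟩

/-- For `4 ≤ m` there is a prime in `(m, 2 m - 3]`. -/
theorem exists_prime_gap {m : ℕ} (hm : 4 ≤ m) : ∃ p, p.Prime ∧ m < p ∧ p + 3 ≤ 2 * m := by
  rcases lt_or_ge m 701 with h | h
  · revert h
    refine prime_gap_step 701 (q := 353) (by norm_num) (by norm_num) ?_
    refine prime_gap_step 353 (q := 179) (by norm_num) (by norm_num) ?_
    refine prime_gap_step 179 (q := 97) (by norm_num) (by norm_num) ?_
    refine prime_gap_step 97 (q := 53) (by norm_num) (by norm_num) ?_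
    refine prime_gap_step 53 (q := 29) (by norm_num) (by norm_num) ?_
    refine prime_gap_step 29 (q := 17) (by norm_num) (by norm_num) ?_
    refine prime_gap_step 17 (q := 11) (by norm_num) (by norm_num) ?_
    refine prime_gap_step 11 (q := 7) (by norm_num) (by norm_num) ?_
    refine prime_gap_step 7 (q := 5) (by norm_num) (by norm_num) ?_
    exact fun h => ⟨5, by norm_num, h, by omega⟩
  · exact exists_prime_gap_large h

end FA.SchurExp

end
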