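import Fermat.Agent.Erdos.SchurGalois.Jordan
import Fermat.Agent.Erdos.SchurGalois.PrimeGap
import Fermat.Agent.Erdos.SchurGalois.Hensel
import Fermat.Agent.Erdos.SchurGalois.Discriminant

/-!
# The Galois group of a truncated exponential

It holds a `p`-cycle for each prime `p` in `(n / 2, n]`, so is primitive. For `n ≥ 8` one of these
primes is at most `n - 3` and Jordan's theorem applies; for `n ≤ 5` it is `3`; for `n = 6, 7` the
roots modulo `19` and `127` give an element moving at most three roots.
-/

set_option autoImplicit false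

noncomputable section

namespace FA.SchurExp

open Finset Nat Polynomial Equiv.Perm

variable (E : Type*) [Field E] [Algebra ℚ E] [DecidableEq E] (n : ℕ)
  [Fact ((expRat n).map (algebraMap ℚ E)).Splits]

/-- The group as permutations of the roots in `E`. -/
abbrev galRange : Subgroup (Equiv.Perm ((expRat n).rootSet E)) :=
  (Gal.galActionHom (expRat n) E).range

theorem exists_cycle {p : ℕ} [Fact p.Prime] (hn : n < 2 * p) (hp : p ≤ n) :
    ∃ g ∈ galRange E n, g.IsCycle ∧ g.support.card = p :=
  exists_isCycle_of_dvd_card (by rw [card_rootSet_expRat]; exact hn)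
    (by rw [card_range]; exact prime_dvd_card_gal hn hp)

theorem isPreprimitive_range {p : ℕ} [hp : Fact p.Prime] (hn : n < 2 * p) (hpn : p ≤ n) :
    MulAction.IsPreprimitive (galRange E n) ((expRat n).rootSet E) := by
  obtain ⟨g, hg, hc, hcard⟩ := exists_cycle E n hn hpn
  have := isPretransitive_range E (n := n) (by have := hp.out.pos; omega)
  exact isPreprimitive_of_primeCycle hg hc (hcard ▸ hp.out)
    (by rw [card_rootSet_expRat, hcard]; exact hn)

theorem le_of_small {p : ℕ} [hp : Fact p.Prime] (hn : n < 2 * p) (hpn : p ≤ n)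
    (h : ∃ g ∈ galRange E n, g ≠ 1 ∧ g.support.card ≤ 3) :
    alternatingGroup ((expRat n).rootSet E) ≤ galRange E n := by
  obtain ⟨g, hg, hg1, hcard⟩ := h
  have h2 : g.support.card ≠ 1 := card_support_ne_one g
  have h0 : g.support.card ≠ 0 := fun h0 => hg1 (support_eq_empty_iff.1 (card_eq_zero.1 h0))
  have hG := isPreprimitive_range E n hn hpn
  obtain h | h : g.support.card = 2 ∨ g.support.card = 3 := by omega
  · exact (subgroup_eq_top_of_isPreprimitive_of_isSwap_mem hG g (card_support_eq_two.1 h) hg).symm ▸
      le_top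
  · exact alternatingGroup_le_of_isPreprimitive_of_isThreeCycle_mem hG
      (card_support_eq_three_iff.1 h) hg

theorem roots_six : ∀ a : ZMod 19,
    (∑ j ∈ Finset.range (6 + 1), ((6 : ℕ).descFactorial (6 - j) : ZMod 19) * a ^ j = 0
      ↔ a ∈ ({1, 4, 9, 14} : Finset (ZMod 19))) ∧
      (a ∈ ({1, 4, 9, 14} : Finset (ZMod 19)) → a ^ 6 ≠ 0) := by
  decide +kernel

theorem roots_seven : ∀ a : ZMod 127,
    (∑ j ∈ Finset.range (7 + 1), ((7 : ℕ).descFactorial (7 - j) : ZMod 127) * a ^ j = 0
      ↔ a ∈ ({25, 35, 84, 93, 116} : Finset (ZMod 127))) ∧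
      (a ∈ ({25, 35, 84, 93, 116} : Finset (ZMod 127)) → a ^ 7 ≠ 0) := by
  decide +kernel

variable {E n}

/-- A root modulo `q` prime to `q` is simple. -/
theorem exists_small_of_roots {q : ℕ} [Fact q.Prime] (l : Finset (ZMod q))
    (h : ∀ a : ZMod q,
      (∑ j ∈ Finset.range (n + 1), (n.descFactorial (n - j) : ZMod q) * a ^ j = 0 ↔ a ∈ l) ∧
        (a ∈ l → a ^ n ≠ 0))
    (h3 : n ≤ l.card + 3) (hlt : l.card < n) :
    ∃ g ∈ galRange E n, g ≠ 1 ∧ g.support.card ≤ 3 :=
  exists_small_support l (fun a => by rw [aeval_expPoly_eq_sum]; exact (h a).1)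
    (fun a ha hd => (h a).2 ha (by
      have e := congrArg (aeval a) (expPoly_eq_derivative_add n)
      rw [map_add, hd, zero_add, map_pow, aeval_X, aeval_expPoly_eq_sum, ((h a).1).2 ha] at e
      exact e.symm)) h3 hlt E

variable (E n)

theorem exists_small_six (hn : n = 6) : ∃ g ∈ galRange E n, g ≠ 1 ∧ g.support.card ≤ 3 := by
  subst hn
  have : Fact (Nat.Prime 19) := ⟨by norm_num⟩
  exact exists_small_of_roots _ roots_six (by decide +revert) (by decide +revert)

theorem exists_small_seven (hn : n = 7) : ∃ g ∈ galRange E n, g ≠ 1 ∧ g.support.card ≤ 3 := by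
  subst hn
  have : Fact (Nat.Prime 127) := ⟨by norm_num⟩
  exact exists_small_of_roots _ roots_seven (by decide +revert) (by decide +revert)

/-- The group contains the alternating group. -/
theorem alternatingGroup_le_range : alternatingGroup ((expRat n).rootSet E) ≤ galRange E n := by
  have hc := card_rootSet_expRat E (n := n)
  rcases Nat.lt_or_ge n 3 with h | h
  · intro g hg
    rw [mem_alternatingGroup] at hg
    suffices g = 1 by rw [this]; exact one_mem _
    by_contra hne
    have h0 : g.support.card ≠ 0 := fun h0 => hne (support_eq_empty_iff.1 (card_eq_zero.1 h0))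
    have h1 : g.support.card ≠ 1 := card_support_ne_one g
    have h2 : g.support.card ≤ 2 := (Finset.card_le_univ _).trans (by omega)
    have h3 := card_support_eq_two.1 (show g.support.card = 2 by omega)
    rw [h3.sign_eq] at hg
    exact absurd hg (by decide)
  rcases Nat.lt_or_ge n 8 with h8 | h8
  · rcases Nat.lt_or_ge n 6 with h6 | h6
    · have : Fact (Nat.Prime 3) := ⟨Nat.prime_three⟩
      obtain ⟨g, hg, -, hcard⟩ := exists_cycle E n (p := 3) (by omega) h
      exact alternatingGroup_le_of_isPreprimitive_of_isThreeCycle_mem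
        (isPreprimitive_range E n (p := 3) (by omega) h) (card_support_eq_three_iff.1 hcard) hg
    · have : Fact (Nat.Prime 5) := ⟨by norm_num⟩
      refine le_of_small E n (p := 5) (by omega) (by omega) ?_
      rcases (show n = 6 ∨ n = 7 by omega) with h | h
      · exact exists_small_six E n h
      · exact exists_small_seven E n h
  · obtain ⟨p, hp, hp1, hp2⟩ := exists_prime_gap (show 4 ≤ n / 2 by omega)
    have := Fact.mk hp
    obtain ⟨g, hg, hcyc, hcard⟩ := exists_cycle E n (p := p) (by omega) (by omega)
    exact alternatingGroup_le_of_primeCycle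
      (isPreprimitive_range E n (p := p) (by omega) (by omega))
      hg hcyc (hcard ▸ hp) (by omega)

/-- The group is `Aₙ` for `4 ∣ n` and `Sₙ` otherwise. -/
theorem range_eq :
    galRange E n = if 4 ∣ n then alternatingGroup ((expRat n).rootSet E) else ⊤ := by
  have hA := alternatingGroup_le_range E n
  rcases Nat.lt_or_ge n 2 with h | h
  · have hc := card_rootSet_expRat E (n := n)
    have : Subsingleton ((expRat n).rootSet E) := Fintype.card_le_one_iff_subsingleton.1 (by omega)
    ext g
    rw [Subsingleton.elim g 1]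
    simp only [one_mem]
  have hiff := (range_le_alternatingGroup_iff E).trans (isSquare_signedDisc_iff h)
  split_ifs with h4
  · exact le_antisymm (hiff.2 h4) hA
  · obtain ⟨s, hs, hsA⟩ := SetLike.not_le_iff_exists.1 (mt hiff.1 h4)
    refine eq_top_iff.2 fun g _ => ?_
    rcases Int.units_eq_one_or (Equiv.Perm.sign g) with h1 | h1
    · exact hA (mem_alternatingGroup.2 h1)
    · have hs1 : Equiv.Perm.sign s = -1 :=
        (Int.units_eq_one_or _).resolve_left fun h => hsA (mem_alternatingGroup.2 h)
      have hm : g * s ∈ alternatingGroup _ := mem_alternatingGroup.2 (by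
        rw [map_mul, h1, hs1, Int.units_mul_self])
      have := mul_mem (hA hm) (inv_mem hs)
      rwa [mul_inv_cancel_right] at this

end FA.SchurExp

end
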